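import Mathlib.RingTheory.LaurentSeries
import Fermat.Prelude.Def_AlgebraicCurve_DivisorClassGroup
import Fermat.Agent.S24.PlaceBasic
import Fermat.Agent.S24.PlaceOfValuation

/-!
# S18, step 0 — the `q`-adic place of a subfield of `k((q))`

For a field `k` and an intermediate field `E` of `k((q))/k` containing an element with a pole
(at `q = 0`), the `q`-adic valuation restricts to a place `cuspPlace` of `E/k`.
It has degree one, `0 ≤ ord f` iff `f` has no pole, and `0 < ord f` iff `f` has no pole and
constant term `0`.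
-/

set_option autoImplicit false

noncomputable section

open AlgebraicCurve HahnSeries WithZero

namespace Fermat.Agent.S18

open Fermat.Agent.S24

variable {k : Type*} [Field k] (E : IntermediateField k (LaurentSeries k))

/-- the restriction of the `q`-adic valuation to `E` -/
def qVal : Valuation E ℤᵐ⁰ :=
  (Valued.v : Valuation (LaurentSeries k) ℤᵐ⁰).comap (algebraMap E (LaurentSeries k))

theorem qVal_apply (f : E) : qVal E f = Valued.v (f : LaurentSeries k) := rfl

theorem qVal_le_one_iff (f : E) :
    qVal E f ≤ 1 ↔ ∀ n : ℤ, n < 0 → (f : LaurentSeries k).coeff n = 0 := by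
  rw [qVal_apply]
  have h := LaurentSeries.valuation_le_iff_coeff_lt_eq_zero (K := k) (D := 0)
    (f := (f : LaurentSeries k))
  simpa using h

theorem qVal_lt_one_iff (f : E) :
    qVal E f < 1 ↔ ∀ n : ℤ, n ≤ 0 → (f : LaurentSeries k).coeff n = 0 := by
  rw [qVal_apply]
  have h := LaurentSeries.valuation_le_iff_coeff_lt_eq_zero (K := k) (D := 1)
    (f := (f : LaurentSeries k))
  have h2 : (Valued.v (f : LaurentSeries k) : ℤᵐ⁰) < 1 ↔
      Valued.v (f : LaurentSeries k) ≤ exp (-(1 : ℤ)) := by
    rw [← WithZero.exp_zero]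
    rcases eq_or_ne (Valued.v (f : LaurentSeries k) : ℤᵐ⁰) 0 with h0 | h0
    · rw [h0]; simp
    · obtain ⟨n, hn⟩ : ∃ n : ℤ, (Valued.v (f : LaurentSeries k) : ℤᵐ⁰) = exp n :=
        ⟨WithZero.log _, (WithZero.exp_log h0).symm⟩
      rw [hn, WithZero.exp_lt_exp, WithZero.exp_le_exp]
      omega
  rw [h2, h]
  constructor
  · intro h n hn; exact h n (by omega)
  · intro h n hn; exact h n (by omega)

theorem qVal_algebraMap_le (a : k) : qVal E (algebraMap k E a) ≤ 1 := by
  rw [qVal_le_one_iff]
  intro n hn
  have : ((algebraMap k E a : E) : LaurentSeries k) = HahnSeries.C a := by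
    rw [← LaurentSeries.algebraMap_apply]; rfl
  rw [this, HahnSeries.C_apply, HahnSeries.coeff_single_of_ne hn.ne]

theorem coe_algebraMap_eq_C (a : k) :
    ((algebraMap k E a : E) : LaurentSeries k) = HahnSeries.C a := by
  rw [← LaurentSeries.algebraMap_apply]; rfl

variable {E}

/-- **The cusp place.**  If `E ⊆ k((q))` contains a nonzero element vanishing at `q = 0`, the
`q`-adic valuation defines a place of `E/k` of degree one. -/
theorem exists_cuspPlace (hpole : ∃ x : E, x ≠ 0 ∧ qVal E x < 1) :
    ∃ w : Place k E, w.deg = 1 ∧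
      (∀ f : E, f ≠ 0 → (0 ≤ w.ord f ↔ ∀ n : ℤ, n < 0 → (f : LaurentSeries k).coeff n = 0)) ∧
      (∀ f : E, f ≠ 0 → (0 < w.ord f ↔ ∀ n : ℤ, n ≤ 0 → (f : LaurentSeries k).coeff n = 0)) := by
  classical
  obtain ⟨w, e₀, he₀, hw, hord⟩ :=
    exists_place_of_valuation (K := k) (qVal E) (qVal_algebraMap_le E) hpole
  have hnn : ∀ f : E, f ≠ 0 →
      (0 ≤ w.ord f ↔ ∀ n : ℤ, n < 0 → (f : LaurentSeries k).coeff n = 0) := by
    intro f hf
    rw [PlaceAux.ord_nonneg_iff w hf, hw, Valuation.mem_valuationSubring_iff, qVal_le_one_iff]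
  have hpos : ∀ f : E, f ≠ 0 →
      (0 < w.ord f ↔ ∀ n : ℤ, n ≤ 0 → (f : LaurentSeries k).coeff n = 0) := by
    intro f hf
    rw [← qVal_lt_one_iff, lt_one_iff_vord_pos (qVal E) hf, hord f hf]
    constructor
    · intro h; exact Int.mul_pos he₀ h
    · intro h
      by_contra hle
      have : e₀ * w.ord f ≤ 0 := Int.mul_nonpos_of_nonneg_of_nonpos he₀.le (not_lt.mp hle)
      omega
  refine ⟨w, ?_, hnn, hpos⟩
  -- the residue field is `k`
  have hsub : ∀ a : w.toValuationSubring,
      a - algebraMap k w.toValuationSubring (((a : E) : LaurentSeries k).coeff 0) ∈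
        IsLocalRing.maximalIdeal w.toValuationSubring := by
    intro a
    set c : k := ((a : E) : LaurentSeries k).coeff 0 with hc
    rcases eq_or_ne ((a : E) - algebraMap k E c) 0 with h0 | h0
    · have : a - algebraMap k w.toValuationSubring c = 0 := Subtype.ext h0
      rw [this]; exact zero_mem _
    · have ha : ∀ n : ℤ, n < 0 → ((a : E) : LaurentSeries k).coeff n = 0 := by
        rcases eq_or_ne (a : E) 0 with ha0 | ha0
        · intro n _; rw [ha0]; simp
        · exact (hnn _ ha0).mp ((PlaceAux.ord_nonneg_iff w ha0).mpr a.2)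
      have h1 : 0 < w.ord ((a : E) - algebraMap k E c) := by
        rw [hpos _ h0]
        intro n hn
        rw [AddSubgroupClass.coe_sub, coe_algebraMap_eq_C, HahnSeries.coeff_sub,
          HahnSeries.C_apply]
        rcases hn.lt_or_eq with hlt | heq
        · rw [ha n hlt, HahnSeries.coeff_single_of_ne hlt.ne, sub_zero]
        · rw [heq, HahnSeries.coeff_single_same, hc, sub_self]
      have h2 := (PlaceAux.ord_pos_iff_mem_nonunits w h0).mp h1
      rw [ValuationSubring.mem_nonunits_iff_exists_mem_maximalIdeal] at h2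
      obtain ⟨hm, h3⟩ := h2
      exact h3
  have hb : Function.Bijective (algebraMap k w.ResidueField) := by
    refine ⟨(algebraMap k w.ResidueField).injective, fun y => ?_⟩
    obtain ⟨a, rfl⟩ := IsLocalRing.residue_surjective y
    refine ⟨((a : E) : LaurentSeries k).coeff 0, ?_⟩
    have h0 : IsLocalRing.residue w.toValuationSubring
        (a - algebraMap k w.toValuationSubring (((a : E) : LaurentSeries k).coeff 0)) = 0 := by
      rw [IsLocalRing.residue]; exact Ideal.Quotient.eq_zero_iff_mem.mpr (hsub a)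
    rw [map_sub, sub_eq_zero] at h0
    rw [h0]
    rfl
  let e : k ≃ₗ[k] w.ResidueField :=
    LinearEquiv.ofBijective (Algebra.linearMap k w.ResidueField) hb
  unfold AlgebraicCurve.Place.deg
  rw [← e.finrank_eq, Module.finrank_self]

end Fermat.Agent.S18
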