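import Fermat.Agent.S18.OfInj
import Fermat.Agent.ES.G2.Plan

/-!
# S18 glue in the captain's form (item 37, piece `S18G`)

* `stmtS18_of_stmtInjPrime : StmtInjPrime → StmtS18`  (prime exponents suffice for S18);
* `stmtS18OfInj : StmtS18OfInj`  (`= StmtInj → StmtS18`).
-/

set_option autoImplicit false

noncomputable section

open AlgebraicCurve ModularCurve

namespace Fermat.Agent.S18

open Fermat.Agent.ES Fermat.Agent.ES.G2

set_option synthInstance.maxHeartbeats 400000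

/-- The interface `InjStatement` of the S18 glue follows from the captain's `StmtInjPrime`. -/
theorem injStatement_of_stmtInjPrime (hinj : StmtInjPrime) (N : ℕ) [NeZero N] (ℓ : ℕ)
    (hℓ : ℓ.Prime) (hℓN : ¬ ℓ ∣ N) (A : ValuationSubring (AlgebraicClosure ℚ))
    (hA : A.LiesOverPrime ℓ) (p : ℕ) (hp : p.Prime) (hpl : p ≠ ℓ) : InjStatement N A p := by
  intro Y₁ Y₂ h₁ h₂ _ hne heq hdiv
  have hne₂ : coeffMap (IsLocalRing.residue A) Y₂ ≠ 0 := by rw [heq]; exact hne
  have hY₁ : Y₁ ≠ 0 := fun h => hne (by rw [h, map_zero])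
  have hY₂ : Y₂ ≠ 0 := fun h => hne₂ (by rw [h, map_zero])
  have hy₁0 : (⟨coeffMap A.subtype Y₁, h₁⟩ : modularFunctionFieldBar N) ≠ 0 := by
    intro h
    apply hY₁
    apply kronIncl_injective (A := A)
    rw [map_zero]
    exact congrArg Subtype.val h
  have hy₂0 : (⟨coeffMap A.subtype Y₂, h₂⟩ : modularFunctionFieldBar N) ≠ 0 := by
    intro h
    apply hY₂
    apply kronIncl_injective (A := A)
    rw [map_zero]
    exact congrArg Subtype.val h
  have hred : ReducesToOne A N ((⟨coeffMap A.subtype Y₁, h₁⟩ : modularFunctionFieldBar N) *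
      (⟨coeffMap A.subtype Y₂, h₂⟩ : modularFunctionFieldBar N)⁻¹) := by
    refine ⟨coeffMap A.subtype Y₁, coeffMap A.subtype Y₂, h₁, h₂,
      (kronPrim_kronIncl_iff Y₁).mpr hne, (kronPrim_kronIncl_iff Y₂).mpr hne₂,
      (kronCongr_kronIncl_iff Y₁ Y₂).mpr heq.symm, ?_⟩
    have h3 : ((⟨coeffMap A.subtype Y₁, h₁⟩ : modularFunctionFieldBar N) *
        (⟨coeffMap A.subtype Y₂, h₂⟩ : modularFunctionFieldBar N)⁻¹) *
        (⟨coeffMap A.subtype Y₂, h₂⟩ : modularFunctionFieldBar N) =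
        (⟨coeffMap A.subtype Y₁, h₁⟩ : modularFunctionFieldBar N) := by
      rw [mul_assoc, inv_mul_cancel₀ hy₂0, mul_one]
    exact congrArg Subtype.val h3
  obtain ⟨h, hh⟩ := hinj N ℓ hℓ hℓN A hA p hp hpl _ (mul_ne_zero hy₁0 (inv_ne_zero hy₂0)) hred
    (fun P => by
      rw [P.ord_mul hy₁0 (inv_ne_zero hy₂0), P.ord_inv, ← sub_eq_add_neg]
      exact hdiv P)
  refine ⟨h, ?_⟩
  rw [hh, mul_assoc, inv_mul_cancel₀ hy₂0, mul_one]

/-- **S18 from (INJ) for prime exponents.** -/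
theorem stmtS18_of_stmtInjPrime (hinj : StmtInjPrime) : StmtS18 := by
  intro N _ ℓ hℓ hℓN A hA h m hm z hmz hz
  exact s18_of_inj N A h
    (fun p hp hpl => injStatement_of_stmtInjPrime hinj N ℓ hℓ.out hℓN A hA p hp hpl)
    m hm z hmz hz

theorem stmtInjPrime_of_stmtInj (hinj : StmtInj) : StmtInjPrime := by
  intro N _ ℓ hℓ hℓN A hA p hp hpl u hu hred hdiv
  exact hinj N ℓ hℓ hℓN A hA p
    (fun hd => hpl ((Nat.prime_dvd_prime_iff_eq hℓ hp).mp hd).symm) u hu hred hdiv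

/-- piece `S18G` of the captain's table. -/
theorem stmtS18OfInj : StmtS18OfInj :=
  fun hinj => stmtS18_of_stmtInjPrime (stmtInjPrime_of_stmtInj hinj)

end Fermat.Agent.S18
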