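import Fermat.Agent.S18.OfInj
import Fermat.Agent.INJ.Stmt

/-!
# S18 from the (INJ) campaign's statement `Fermat.Agent.INJ.StmtINJAll`
-/

set_option autoImplicit false

noncomputable section

open AlgebraicCurve ModularCurve

namespace Fermat.Agent.S18

theorem injStatement_of_stmtINJ {N ℓ p : ℕ} [NeZero N]
    (A : ValuationSubring (AlgebraicClosure ℚ)) (hA : A.LiesOverPrime ℓ)
    (h : Fermat.Agent.INJ.StmtINJ N ℓ p) : InjStatement N A p := by
  intro Y₁ Y₂ h₁ h₂ _ hne heq hdiv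
  exact h A hA Y₁ Y₂ h₁ h₂ heq.symm (heq ▸ hne) hdiv

/-- **S18 from `StmtINJAll`** (the exact frozen statement of S18, with (INJ) as a hypothesis). -/
theorem s18_of_stmtINJAll (hINJ : Fermat.Agent.INJ.StmtINJAll) (N : ℕ) [NeZero N] {ℓ : ℕ}
    [Fact ℓ.Prime] (hℓN : ¬ ℓ ∣ N) (A : ValuationSubring (AlgebraicClosure ℚ))
    (hA : A.LiesOverPrime ℓ)
    (h : ModularCurve.ReductionInputsModL A N) (m : ℕ) (hm : ¬ ℓ ∣ m) (z : ModularCurve.JZero N)
    (hmz : m • z = 0) (hz : ModularCurve.reductionModL A N z = 0) :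
    z = 0 :=
  s18_of_inj N A h
    (fun p hp hpl => injStatement_of_stmtINJ A hA
      (hINJ N ℓ p (NeZero.ne N) (Fact.out : ℓ.Prime) hp hℓN (fun e => hpl e.symm)))
    m hm z hmz hz

end Fermat.Agent.S18
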