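import Fermat.Agent.S18.Integral

/-!
# S18, step 0 — divisors of integral elements and constancy

With a place reduction `r` (field (2) of `ReductionInputsAlong`) and principal divisors on the
generic fibre:

* `exists_div_int` : an integral element `Y` with nonzero reduction has a divisor `D` of degree `0`
  and `r_* D` is the divisor of the reduction of `Y`;
* `redk_eq_const_mul` : if the reductions of two integral elements have the same order at every
  place of `F_k`, they differ by a nonzero constant.  (No function-field theory in characteristic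
  `ℓ` is used: the cusp place has degree `1`, and `r_*` preserves degrees.)
-/

set_option autoImplicit false
set_option linter.unusedSectionVars false
set_option linter.style.haveILetI false

noncomputable section

open AlgebraicCurve ModularCurve HahnSeries IntermediateField

namespace Fermat.Agent.S18

open Fermat.Agent.S24

section Degree

variable {K F : Type*} [Field K] [Field F] [Algebra K F]

theorem degree_eq_sum (E : Divisor K F) :
    Divisor.degree E = ∑ v ∈ E.support, E v * (v.deg : ℤ) := by
  simp [Divisor.degree, Finsupp.sum]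

theorem mul_deg_le_degree (E : Divisor K F) (hE : ∀ Q, 0 ≤ E Q) (Q₀ : Place K F) :
    E Q₀ * (Q₀.deg : ℤ) ≤ Divisor.degree E := by
  classical
  rw [degree_eq_sum]
  have hnn : ∀ v ∈ E.support, 0 ≤ E v * (v.deg : ℤ) := fun v _ =>
    mul_nonneg (hE v) (Int.natCast_nonneg _)
  by_cases h : Q₀ ∈ E.support
  · exact Finset.single_le_sum (f := fun v => E v * (v.deg : ℤ)) hnn h
  · rw [Finsupp.notMem_support_iff] at h
    rw [h, zero_mul]
    exact Finset.sum_nonneg hnn

end Degree

variable {L : Type*} [Field L] [Algebra ℚ L] {A : ValuationSubring L}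
variable {k : Type*} [Field k] {π : A →+* k} {N : ℕ} [NeZero N]
variable {r : Place L (laurentBaseChange L (modularFunctionFieldFull N)) →
  Place k (modularFunctionFieldFullC k N)}

/-- The divisor of an integral element and its reduction. -/
theorem exists_div_int
    (hpd : HasPrincipalDivisors L (laurentBaseChange L (modularFunctionFieldFull N)))
    (hr : IsPlaceReductionAlong A π N r) (Y : intSubring A π N) (hY : redk A π N Y ≠ 0) :
    ∃ D : Divisor L (laurentBaseChange L (modularFunctionFieldFull N)),
      (∀ P, D P = P.ord (genL A π N Y)) ∧ Divisor.degree D = 0 ∧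
        ∀ Q, Finsupp.mapDomain r D Q = Q.ord (redk A π N Y) := by
  obtain ⟨D, hD, hdeg⟩ := hpd.exists_divisor (genL A π N Y) (genL_ne_zero_of_redk_ne_zero hY)
  refine ⟨D, hD, hdeg, ?_⟩
  exact hr.2 Y.1 Y.2.1 Y.2.2 (fun h => hY (Subtype.ext h)) D hD

/-- `F_k` contains a nonzero element vanishing at the cusp `∞`, namely `1/j`. -/
theorem exists_pole_Fk (k : Type*) [Field k] (N : ℕ) [NeZero N] :
    ∃ x : modularFunctionFieldFullC k N, x ≠ 0 ∧ qVal (modularFunctionFieldFullC k N) x < 1 := by
  set j : modularFunctionFieldFullC k N := ⟨jqModC k, jqModC_mem_full k N⟩ with hj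
  have hj0 : j ≠ 0 := by
    intro h
    have := congrArg (fun z : modularFunctionFieldFullC k N => (z : LaurentSeries k)) h
    exact jqModC_ne_zero_of_nontrivial k this
  have hjv : ¬ qVal (modularFunctionFieldFullC k N) j ≤ 1 := by
    rw [qVal_le_one_iff]
    intro h
    have h1 := h (-1) (by norm_num)
    rw [hj] at h1
    simp only at h1
    rw [coeff_jqModC_neg_one] at h1
    exact one_ne_zero h1
  refine ⟨j⁻¹, inv_ne_zero hj0, ?_⟩
  rw [map_inv₀]
  exact inv_lt_one_of_one_lt₀ (not_le.mp hjv)

/-- **Constancy.**  If the reductions of two integral elements have the same order at every place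
of `F_k`, they differ by a nonzero constant. -/
theorem redk_eq_const_mul
    (hpd : HasPrincipalDivisors L (laurentBaseChange L (modularFunctionFieldFull N)))
    (hπ : Function.Surjective π) (hr : IsPlaceReductionAlong A π N r)
    (Z₁ Z₂ : intSubring A π N) (h₁ : redk A π N Z₁ ≠ 0) (h₂ : redk A π N Z₂ ≠ 0)
    (hord : ∀ Q : Place k (modularFunctionFieldFullC k N),
      Q.ord (redk A π N Z₁) = Q.ord (redk A π N Z₂)) :
    ∃ c : A, π c ≠ 0 ∧ redk A π N Z₁ = redk A π N (intC c * Z₂) := by
  classical
  obtain ⟨wInf, hdeg, hnn, hpos⟩ := exists_cuspPlace (exists_pole_Fk k N)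
  set u : modularFunctionFieldFullC k N := redk A π N Z₁ * (redk A π N Z₂)⁻¹ with hu
  have hu0 : u ≠ 0 := mul_ne_zero h₁ (inv_ne_zero h₂)
  have huord : ∀ Q : Place k (modularFunctionFieldFullC k N), Q.ord u = 0 := by
    intro Q
    rw [hu, Q.ord_mul h₁ (inv_ne_zero h₂), Q.ord_inv, hord Q]
    ring
  have huInf : ∀ n : ℤ, n < 0 → (u : LaurentSeries k).coeff n = 0 :=
    (hnn u hu0).mp (by rw [huord])
  obtain ⟨c, hc⟩ := hπ ((u : LaurentSeries k).coeff 0)
  set w : modularFunctionFieldFullC k N := u - algebraMap k _ (π c) with hw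
  have h3 : redk A π N (Z₁ - intC c * Z₂) = w * redk A π N Z₂ := by
    rw [map_sub, map_mul, redk_intC, hw, hu, sub_mul, mul_assoc, inv_mul_cancel₀ h₂, mul_one]
  by_cases h30 : redk A π N (Z₁ - intC c * Z₂) = 0
  · refine ⟨c, ?_, ?_⟩
    · intro hc0
      apply h₁
      rw [map_sub, sub_eq_zero] at h30
      rw [h30, map_mul, redk_intC, hc0, map_zero, zero_mul]
    · rw [map_sub, sub_eq_zero] at h30
      exact h30
  · exfalso
    have hw0 : w ≠ 0 := by
      intro h0
      apply h30
      rw [h3, h0, zero_mul]
    obtain ⟨D₃, hD₃, hdeg₃, hr₃⟩ := exists_div_int hpd hr _ h30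
    obtain ⟨D₂, hD₂, hdeg₂, hr₂⟩ := exists_div_int hpd hr _ h₂
    have hE : ∀ Q, (Finsupp.mapDomain r (D₃ - D₂)) Q = Q.ord w := by
      intro Q
      rw [Finsupp.mapDomain_sub, Finsupp.sub_apply, hr₃, hr₂, h3, Q.ord_mul hw0 h₂]
      ring
    have hEnn : ∀ Q, 0 ≤ (Finsupp.mapDomain r (D₃ - D₂)) Q := by
      intro Q
      rw [hE, PlaceAux.ord_nonneg_iff Q hw0, hw]
      refine Q.toValuationSubring.sub_mem ?_ (Q.algebraMap_mem' _)
      exact PlaceAux.mem_of_ord_nonneg Q (by rw [huord])
    have hEInf : 0 < (Finsupp.mapDomain r (D₃ - D₂)) wInf := by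
      rw [hE, hpos w hw0]
      intro n hn
      rw [hw, AddSubgroupClass.coe_sub, coe_algebraMap_eq_C, HahnSeries.coeff_sub,
        HahnSeries.C_apply]
      rcases hn.lt_or_eq with hlt | heq
      · rw [huInf n hlt, HahnSeries.coeff_single_of_ne hlt.ne, sub_zero]
      · rw [heq, HahnSeries.coeff_single_same, hc, sub_self]
    have hdegE : Divisor.degree (Finsupp.mapDomain r (D₃ - D₂)) = 0 := by
      rw [degree_mapDomain_of_deg_eq hr.1, map_sub, hdeg₃, hdeg₂, sub_zero]
    have hle := mul_deg_le_degree _ hEnn wInf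
    rw [hdegE, hdeg, Nat.cast_one, mul_one] at hle
    omega

end Fermat.Agent.S18
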