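import Fermat.Prelude.Def_ModularCurve_ReductionModL

/-!
# The statement (INJ) in the form consumed by S18

`Fermat.Agent.S18.InjStatement N A m`:  let `Y₁, Y₂ ∈ A((q))` have images in the function field
`F = ℚ̄(j(q^d) : d ∣ N)` and the SAME nonzero reduction (lying in `F_k = k(j(q^d) : d ∣ N)`).
If the divisor of `Y₁ / Y₂` on `F` is divisible by `m`, then `Y₁ / Y₂` is an `m`-th power in `F`.

(`Y₁ / Y₂ ≡ 1` for the Gauss valuation of `F`; this is the statement called (INJ) / (**) in
`NOTES/S18-plan.md` and `NOTES/ESpkg.md`.)  `Fermat.Agent.S18.s18_of_inj` deduces S18 from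
`InjStatement N A p` for all primes `p ≠ ℓ`.
-/

set_option autoImplicit false

noncomputable section

open AlgebraicCurve ModularCurve

namespace Fermat.Agent.S18

/-- The statement (INJ) at level `N`, valuation ring `A ⊂ ℚ̄` and exponent `m`. -/
def InjStatement (N : ℕ) [NeZero N] (A : ValuationSubring (AlgebraicClosure ℚ)) (m : ℕ) : Prop :=
  ∀ (Y₁ Y₂ : LaurentSeries A)
    (h₁ : coeffMap A.subtype Y₁ ∈ modularFunctionFieldBar N)
    (h₂ : coeffMap A.subtype Y₂ ∈ modularFunctionFieldBar N),
    coeffMap (IsLocalRing.residue A) Y₁ ∈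
        modularFunctionFieldFullC (IsLocalRing.ResidueField A) N →
      coeffMap (IsLocalRing.residue A) Y₁ ≠ 0 →
      coeffMap (IsLocalRing.residue A) Y₂ = coeffMap (IsLocalRing.residue A) Y₁ →
      (∀ P : Place (AlgebraicClosure ℚ) (modularFunctionFieldBar N),
        (m : ℤ) ∣ P.ord (⟨_, h₁⟩ : modularFunctionFieldBar N) -
          P.ord (⟨_, h₂⟩ : modularFunctionFieldBar N)) →
      ∃ w : modularFunctionFieldBar N,
        w ^ m * (⟨_, h₂⟩ : modularFunctionFieldBar N) = ⟨_, h₁⟩

end Fermat.Agent.S18
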