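import Fermat.Prelude.Def_ModularCurve_ReductionModL
import Fermat.Agent.S18.CuspPlace

/-!
# S18, step 0 — integral elements of the modular function field

`intSubring A π N` is the ring of Laurent series `Y ∈ A((q))` whose image in `L((q))` lies in the
function field `F = L(j(q^d) : d ∣ N)` and whose reduction lies in `F_k = k(j(q^d) : d ∣ N)`.
Every element of `F_k` is a quotient of reductions of integral elements.
-/

set_option autoImplicit false
set_option linter.unusedSectionVars false
set_option linter.style.haveILetI false

noncomputable section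

open AlgebraicCurve ModularCurve HahnSeries IntermediateField

namespace Fermat.Agent.S18

variable {L : Type*} [Field L] [Algebra ℚ L] (A : ValuationSubring L)
variable {k : Type*} [Field k] (π : A →+* k) (N : ℕ) [NeZero N]

/-- The subring of integral elements of `A((q))`. -/
def intSubring : Subring (LaurentSeries A) :=
  (laurentBaseChange L (modularFunctionFieldFull N)).toSubfield.toSubring.comap
      (coeffMap A.subtype) ⊓
    (modularFunctionFieldFullC k N).toSubfield.toSubring.comap (coeffMap π)

variable {A π N}

theorem mem_intSubring {Y : LaurentSeries A} :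
    Y ∈ intSubring A π N ↔
      coeffMap A.subtype Y ∈ laurentBaseChange L (modularFunctionFieldFull N) ∧
        coeffMap π Y ∈ modularFunctionFieldFullC k N :=
  Iff.rfl

variable (A π N)

/-- the generic fibre of an integral element -/
def genL : intSubring A π N →+* laurentBaseChange L (modularFunctionFieldFull N) :=
  ((coeffMap A.subtype).comp (intSubring A π N).subtype).codRestrict
    (laurentBaseChange L (modularFunctionFieldFull N)) (fun y => y.2.1)

/-- the reduction of an integral element -/
def redk : intSubring A π N →+* modularFunctionFieldFullC k N :=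
  ((coeffMap π).comp (intSubring A π N).subtype).codRestrict
    (modularFunctionFieldFullC k N) (fun y => y.2.2)

variable {A π N}

@[simp]
theorem coe_genL (Y : intSubring A π N) :
    ((genL A π N Y : laurentBaseChange L (modularFunctionFieldFull N)) : LaurentSeries L) =
      coeffMap A.subtype (Y : LaurentSeries A) := rfl

@[simp]
theorem coe_redk (Y : intSubring A π N) :
    ((redk A π N Y : modularFunctionFieldFullC k N) : LaurentSeries k) =
      coeffMap π (Y : LaurentSeries A) := rfl

theorem coeffMap_subtype_injective : Function.Injective (coeffMap A.subtype) := by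
  intro x y h
  ext n
  have := congrArg (fun z => z.coeff n) h
  simpa using this

theorem genL_injective : Function.Injective (genL A π N) := by
  intro x y h
  have h' := congrArg (fun z : laurentBaseChange L (modularFunctionFieldFull N) =>
    (z : LaurentSeries L)) h
  simp only [coe_genL] at h'
  exact Subtype.ext (coeffMap_subtype_injective h')

theorem genL_ne_zero_of_redk_ne_zero {Y : intSubring A π N} (h : redk A π N Y ≠ 0) :
    genL A π N Y ≠ 0 := by
  intro h0
  apply h
  have : Y = 0 := genL_injective (by rw [h0, map_zero])
  rw [this, map_zero]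

theorem coeffMap_C {R S : Type*} [CommRing R] [CommRing S] (f : R →+* S) (a : R) :
    coeffMap f (HahnSeries.C a) = HahnSeries.C (f a) := by
  rw [HahnSeries.C_apply, coeffMap_single, HahnSeries.C_apply]

theorem C_mem_intSubring (a : A) : (HahnSeries.C a : LaurentSeries A) ∈ intSubring A π N := by
  rw [mem_intSubring]
  refine ⟨?_, ?_⟩
  · rw [coeffMap_C, ← LaurentSeries.algebraMap_apply]
    exact (laurentBaseChange L (modularFunctionFieldFull N)).algebraMap_mem _
  · rw [coeffMap_C, ← LaurentSeries.algebraMap_apply]
    exact (modularFunctionFieldFullC k N).algebraMap_mem _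

theorem jd_mem_intSubring {d : ℕ} [NeZero d] (hd : d ∣ N) :
    qExpand A d (jqModC A) ∈ intSubring A π N := by
  rw [mem_intSubring]
  refine ⟨?_, ?_⟩
  · rw [coeffMap_qExpand, coeffMap_jqModC]
    have h1 : qExpand L d (jqModC L) = coeffEmb L (qExpand ℚ d jq) := by
      rw [coeffEmb, coeffMap_qExpand, ← jqModC_rat, coeffMap_jqModC]
    rw [h1]
    exact coeffEmb_mem_laurentBaseChange L (jqd_mem_full N hd)
  · rw [coeffMap_qExpand, coeffMap_jqModC]
    exact jqModCd_mem_full k N hd

/-- constants as integral elements -/
def intC (a : A) : intSubring A π N := ⟨HahnSeries.C a, C_mem_intSubring a⟩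

@[simp]
theorem redk_intC (a : A) : redk A π N (intC a) = algebraMap k (modularFunctionFieldFullC k N) (π a) := by
  apply Subtype.ext
  rw [coe_redk]
  show coeffMap π (HahnSeries.C a) = _
  rw [coeffMap_C, ← LaurentSeries.algebraMap_apply]
  rfl

@[simp]
theorem genL_intC (a : A) :
    genL A π N (intC a) =
      algebraMap L (laurentBaseChange L (modularFunctionFieldFull N)) (a : L) := by
  apply Subtype.ext
  rw [coe_genL]
  show coeffMap A.subtype (HahnSeries.C a) = _
  rw [coeffMap_C, ← LaurentSeries.algebraMap_apply]
  rfl

/-- Every element of the polynomial ring `k[j(q^d)]` is the reduction of an integral element. -/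
theorem exists_redk_eq_of_mem_adjoin (hπ : Function.Surjective π) {r : LaurentSeries k}
    (hr : r ∈ Algebra.adjoin k (divisorExpansionsC k N)) :
    ∃ Y : intSubring A π N, ((redk A π N Y : modularFunctionFieldFullC k N) : LaurentSeries k) = r := by
  induction hr using Algebra.adjoin_induction with
  | mem x hx =>
    obtain ⟨d, hne, hd, rfl⟩ := hx
    haveI := hne
    refine ⟨⟨qExpand A d (jqModC A), jd_mem_intSubring hd⟩, ?_⟩
    rw [coe_redk]
    show coeffMap π (qExpand A d (jqModC A)) = _
    rw [coeffMap_qExpand, coeffMap_jqModC]
  | algebraMap c =>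
    obtain ⟨a, rfl⟩ := hπ c
    refine ⟨intC a, ?_⟩
    rw [redk_intC]
    rfl
  | add x y _ _ hx hy =>
    obtain ⟨X, rfl⟩ := hx
    obtain ⟨Y, rfl⟩ := hy
    exact ⟨X + Y, by rw [map_add]; rfl⟩
  | mul x y _ _ hx hy =>
    obtain ⟨X, rfl⟩ := hx
    obtain ⟨Y, rfl⟩ := hy
    exact ⟨X * Y, by rw [map_mul]; rfl⟩

/-- **Every element of `F_k` is a quotient of reductions of integral elements.** -/
theorem exists_redk_div (hπ : Function.Surjective π) (g : modularFunctionFieldFullC k N) :
    ∃ Ya Yb : intSubring A π N, redk A π N Yb ≠ 0 ∧ g * redk A π N Yb = redk A π N Ya := by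
  have hg : (g : LaurentSeries k) ∈ IntermediateField.adjoin k (divisorExpansionsC k N) := g.2
  rw [mem_adjoin_iff_div] at hg
  obtain ⟨r, hr, s, hs, hgrs⟩ := hg
  obtain ⟨Ya, hYa⟩ := exists_redk_eq_of_mem_adjoin (A := A) (π := π) hπ hr
  obtain ⟨Yb, hYb⟩ := exists_redk_eq_of_mem_adjoin (A := A) (π := π) hπ hs
  rcases eq_or_ne s 0 with hs0 | hs0
  · refine ⟨0, 1, ?_, ?_⟩
    · rw [map_one]; exact one_ne_zero
    · rw [map_one, map_zero, mul_one]
      apply Subtype.ext
      rw [hgrs, hs0, div_zero]
      rfl
  · refine ⟨Ya, Yb, ?_, ?_⟩
    · intro h0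
      apply hs0
      rw [← hYb, h0]
      rfl
    · apply Subtype.ext
      show (g : LaurentSeries k) * ((redk A π N Yb : modularFunctionFieldFullC k N) : LaurentSeries k)
        = ((redk A π N Ya : modularFunctionFieldFullC k N) : LaurentSeries k)
      rw [hYa, hYb, hgrs, div_mul_cancel₀ _ hs0]

end Fermat.Agent.S18
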